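import Fermat.Agent.RandomGraphSpectrum.Deterministic
import Fermat.Agent.WignerFiniteVariance.Main

/-!
# Entries with any mean
-/

set_option autoImplicit false

noncomputable section

namespace FA.RandomGraphSpectrum

open MeasureTheory Filter Topology
open FA.WignerSemicircle (wignerMatrix)
open FA.WignerAlmostSure (corner)
open FA.WignerWeakLaw (isHermitian_scaled spectralMean semiMean boxInd spectralMean_boxInd)

theorem eigenShare_scaled {n : ℕ} (X : Sym2 (Fin n) → ℝ) (a b : ℝ) :
    eigenShare (isHermitian_scaled X) a b = spectralMean (boxInd a b) X :=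
  (spectralMean_boxInd a b X).symm

/-- The corner of `X`, scaled by `(s √n)⁻¹`. -/
theorem isHermitian_rescaled (n : ℕ) (s : ℝ) (X : Sym2 ℕ → ℝ) :
    ((s * √(n : ℝ))⁻¹ • Matrix.of fun i j : Fin n => X s((i : ℕ), (j : ℕ))).IsHermitian :=
  Matrix.IsHermitian.ext fun i j => by simp [Sym2.eq_swap (a := (i : ℕ))]

theorem rescaled_sub_rank (n : ℕ) (s m : ℝ) (X : Sym2 ℕ → ℝ) :
    ((s * √(n : ℝ))⁻¹ • Matrix.of (fun i j : Fin n => X s((i : ℕ), (j : ℕ))) -
      (√(n : ℝ))⁻¹ • wignerMatrix (corner n fun e => (X e - m) / s)).rank ≤ 1 := by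
  have h : (s * √(n : ℝ))⁻¹ • Matrix.of (fun i j : Fin n => X s((i : ℕ), (j : ℕ))) -
      (√(n : ℝ))⁻¹ • wignerMatrix (corner n fun e => (X e - m) / s) =
        Matrix.vecMulVec (fun _ : Fin n => (s * √(n : ℝ))⁻¹ * m) fun _ : Fin n => (1 : ℝ) := by
    ext i j
    simp only [Matrix.sub_apply, Matrix.smul_apply, Matrix.of_apply, wignerMatrix, corner,
      Sym2.map_mk, Matrix.vecMulVec_apply, smul_eq_mul]
    rw [mul_inv]
    ring
  rw [h]
  exact Matrix.rank_vecMulVec_le _ _

theorem ae_any_mean (μ : Measure ℝ) [IsProbabilityMeasure μ] {m s : ℝ} (hs : 0 < s)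
    (h1 : ∫ x, x ∂μ = m) (h2 : ∫ x, (x - m) ^ 2 ∂μ = s ^ 2) :
    ∀ᵐ X ∂(Measure.infinitePi fun _ : Sym2 ℕ => μ), ∀ a b : ℝ,
      Tendsto (fun n => eigenShare (isHermitian_rescaled n s X) a b) atTop
        (𝓝 (semiMean (boxInd a b))) := by
  set g := fun x : ℝ => (x - m) / s with hg
  have hgm : Measurable g := by fun_prop
  have : IsProbabilityMeasure (μ.map g) := Measure.isProbabilityMeasure_map hgm.aemeasurable
  have hsq : Integrable (fun x => (x - m) ^ 2) μ := by
    by_contra h
    rw [integral_undef h] at h2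
    exact (pow_pos hs 2).ne h2
  have hid : Integrable (fun x : ℝ => x) μ := by
    refine (hsq.add (integrable_const (1 + |m|))).mono' measurable_id.aestronglyMeasurable
      (.of_forall fun x => ?_)
    simp only [Pi.add_apply, Real.norm_eq_abs]
    nlinarith [abs_sub_abs_le_abs_sub x m, sq_abs (x - m), sq_nonneg (|x - m| - 1),
      abs_nonneg (x - m)]
  have m1 : ∫ x, x ∂(μ.map g) = 0 := by
    rw [integral_map hgm.aemeasurable (by fun_prop), hg]
    simp only
    rw [integral_div, integral_sub hid (integrable_const _), integral_const, probReal_univ,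
      one_smul, h1, sub_self, zero_div]
  have m2 : ∫ x, x ^ 2 ∂(μ.map g) = 1 := by
    rw [integral_map hgm.aemeasurable (by fun_prop), hg]
    simp only [div_pow]
    rw [integral_div, h2, div_self (pow_ne_zero 2 hs.ne')]
  have h := FA.WignerFiniteVariance.ae_semicircle_box (μ.map g) m1 m2
  rw [← Measure.infinitePi_map_pi (fun _ : Sym2 ℕ => μ) (f := fun _ => g) fun _ => hgm] at h
  filter_upwards [ae_of_ae_map (measurable_pi_lambda _ fun e =>
    hgm.comp (measurable_pi_apply e)).aemeasurable h] with X hX a b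
  have h3 := hX a b
  simp only [← eigenShare_scaled] at h3
  exact tendsto_share_of_rank_one _ _ (fun n => rescaled_sub_rank n s m X) h3

end FA.RandomGraphSpectrum
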