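import Fermat.Agent.RandomGraphSpectrum.Rank
import Fermat.Agent.WignerFiniteVariance.Deterministic

/-!
# Proportions of eigenvalues under perturbation
-/

set_option autoImplicit false

noncomputable section

namespace FA.RandomGraphSpectrum

open Finset Filter Topology
open FA.WignerWeakLaw
open FA.WignerFiniteVariance (entryMean abs_spectralMean_sub_le)

/-- The proportion of eigenvalues in `[a, b]`. -/
def eigenShare {n : ℕ} {A : Matrix (Fin n) (Fin n) ℝ} (hA : A.IsHermitian) (a b : ℝ) : ℝ :=
  (Nat.card {i : Fin n // hA.eigenvalues i ∈ Set.Icc a b} : ℝ) / n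

theorem eigenShare_congr {n : ℕ} {A B : Matrix (Fin n) (Fin n) ℝ} (hA : A.IsHermitian)
    (hB : B.IsHermitian) (h : A = B) (a b : ℝ) : eigenShare hA a b = eigenShare hB a b := by
  subst h; rfl

theorem abs_eigenShare_sub_le {n : ℕ} {A B : Matrix (Fin n) (Fin n) ℝ} (hA : A.IsHermitian)
    (hB : B.IsHermitian) (a b : ℝ) :
    |eigenShare hA a b - eigenShare hB a b| ≤ 2 * (A - B).rank / n := by
  have h1 := card_Icc_le hA hB a b
  have h2 := card_Icc_le hB hA a b
  have hneg : (B - A).rank ≤ (A - B).rank := by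
    rw [show B - A = (A - B) * (-1) by simp]
    exact Matrix.rank_mul_le_left _ _
  have h2' : Nat.card {i : Fin n // hB.eigenvalues i ∈ Set.Icc a b} ≤
      Nat.card {i : Fin n // hA.eigenvalues i ∈ Set.Icc a b} + 2 * (A - B).rank := by omega
  rw [eigenShare, eigenShare, ← sub_div, abs_div, Nat.abs_cast]
  refine div_le_div_of_nonneg_right (abs_sub_le_iff.2 ⟨?_, ?_⟩) (Nat.cast_nonneg _)
  · rw [sub_le_iff_le_add']
    exact_mod_cast h1
  · rw [sub_le_iff_le_add']
    exact_mod_cast h2'

/-- A perturbation of rank one does not move the limit. -/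
theorem tendsto_share_of_rank_one {A B : ∀ n : ℕ, Matrix (Fin n) (Fin n) ℝ}
    (hA : ∀ n, (A n).IsHermitian) (hB : ∀ n, (B n).IsHermitian)
    (hr : ∀ n, (A n - B n).rank ≤ 1) {a b l : ℝ}
    (h : Tendsto (fun n => eigenShare (hB n) a b) atTop (𝓝 l)) :
    Tendsto (fun n => eigenShare (hA n) a b) atTop (𝓝 l) := by
  have hd : Tendsto (fun n => eigenShare (hA n) a b - eigenShare (hB n) a b) atTop (𝓝 0) := by
    refine squeeze_zero_norm (fun n => ?_)
      (tendsto_natCast_atTop_atTop.const_div_atTop (2 : ℝ))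
    rw [Real.norm_eq_abs]
    refine (abs_eigenShare_sub_le (hA n) (hB n) a b).trans ?_
    refine div_le_div_of_nonneg_right ?_ (Nat.cast_nonneg _)
    exact_mod_cast (Nat.mul_le_mul_left 2 (hr n))
  simpa using hd.add h

theorem abs_clampOne_sub_le (u v : ℝ) : |max 0 (min 1 u) - max 0 (min 1 v)| ≤ |u - v| :=
  ((abs_max_sub_max_le_max _ _ _ _).trans (max_le (by simp) (abs_min_sub_min_le_max _ _ _ _))).trans
    (by simp)

theorem outerCut_lipschitz (a b : ℝ) (k : ℕ) (x y : ℝ) :
    |outerCut a b k x - outerCut a b k y| ≤ ((k : ℝ) + 1) * |x - y| := by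
  refine (abs_clampOne_sub_le _ _).trans ((abs_min_sub_min_le_max _ _ _ _).trans (max_le ?_ ?_))
  · rw [add_sub_add_right_eq_sub, ← mul_sub, abs_mul, abs_of_nonneg (by positivity)]
    simp
  · rw [add_sub_add_right_eq_sub, ← mul_sub, abs_mul, abs_of_nonneg (by positivity), abs_sub_comm x]
    simp

theorem innerCut_lipschitz (a b : ℝ) (k : ℕ) (x y : ℝ) :
    |innerCut a b k x - innerCut a b k y| ≤ ((k : ℝ) + 1) * |x - y| := by
  refine (abs_clampOne_sub_le _ _).trans ((abs_min_sub_min_le_max _ _ _ _).trans (max_le ?_ ?_))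
  · rw [← mul_sub, abs_mul, abs_of_nonneg (by positivity)]
    simp
  · rw [← mul_sub, abs_mul, abs_of_nonneg (by positivity), abs_sub_comm x]
    simp

/-- A perturbation of vanishing mean square does not move the limit. -/
theorem tendsto_box_of_close (X Y : ∀ n : ℕ, Sym2 (Fin n) → ℝ)
    (hd : Tendsto (fun n => entryMean fun e => Y n e - X n e) atTop (𝓝 0))
    (h : ∀ f : ℝ → ℝ, Continuous f → (∃ F, ∀ x, |f x| ≤ F) →
      Tendsto (fun n => spectralMean f (X n)) atTop (𝓝 (semiMean f))) (a b : ℝ) :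
    Tendsto (fun n => spectralMean (boxInd a b) (Y n)) atTop (𝓝 (semiMean (boxInd a b))) := by
  have hlip : ∀ (f : ℝ → ℝ) (L : ℝ), Continuous f → (∀ x, |f x| ≤ 1) → 0 ≤ L →
      (∀ x y, |f x - f y| ≤ L * |x - y|) →
        Tendsto (fun n => spectralMean f (Y n)) atTop (𝓝 (semiMean f)) := by
    intro f L hf hb hL hl
    have h0 : Tendsto (fun n => spectralMean f (Y n) - spectralMean f (X n)) atTop (𝓝 0) := by
      refine squeeze_zero_norm (fun n => ?_)
        (by simpa using ((Real.continuous_sqrt.tendsto 0).comp hd).const_mul L)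
      rw [Real.norm_eq_abs]
      exact abs_spectralMean_sub_le hL hl _ _
    simpa using h0.add (h f hf ⟨1, hb⟩)
  have hout := tendsto_semiMean_cut a b _ (continuous_outerCut a b) (abs_outerCut_le a b)
    fun x _ _ => tendsto_outerCut a b x
  have hin := tendsto_semiMean_cut a b _ (continuous_innerCut a b) (abs_innerCut_le a b)
    fun x ha hb => tendsto_innerCut a b x ⟨ha, hb⟩
  refine tendsto_order.2 ⟨fun c hc => ?_, fun c hc => ?_⟩
  · obtain ⟨k, hk⟩ := (hin.eventually_const_lt hc).exists
    filter_upwards [(hlip _ _ (continuous_innerCut a b k) (abs_innerCut_le a b k) (by positivity)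
      (innerCut_lipschitz a b k)).eventually_const_lt hk] with m hm
    exact hm.trans_le (spectralMean_mono (innerCut_le a b k) _)
  · obtain ⟨k, hk⟩ := (hout.eventually_lt_const hc).exists
    filter_upwards [(hlip _ _ (continuous_outerCut a b k) (abs_outerCut_le a b k) (by positivity)
      (outerCut_lipschitz a b k)).eventually_lt_const hk] with m hm
    exact (spectralMean_mono (le_outerCut a b k) _).trans_lt hm

end FA.RandomGraphSpectrum
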