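import Fermat.Agent.RandomGraphSpectrum.AnyMean
import Mathlib.Probability.Combinatorics.BinomialRandomGraph.Defs
import Mathlib.Combinatorics.SimpleGraph.AdjMatrix
import Mathlib.MeasureTheory.Measure.Prod

/-!
# The binomial random graph
-/

set_option autoImplicit false

noncomputable section

namespace FA.RandomGraphSpectrum

open MeasureTheory Filter Topology unitInterval
open scoped Classical SimpleGraph
open FA.WignerSemicircle (wignerMatrix)
open FA.WignerAlmostSure (corner)
open FA.WignerWeakLaw (semiMean boxInd)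
open FA.WignerFiniteVariance (entryMean)

variable (p : I)

/-- The law of one coin. -/
def coinLaw : Measure Prop :=
  toNNReal p • Measure.dirac True + toNNReal (σ p) • Measure.dirac False

instance : IsProbabilityMeasure (coinLaw p) :=
  ⟨by simp [coinLaw]⟩

/-- The graph of a family of coins. -/
def coinGraph (P : Sym2 ℕ → Prop) : SimpleGraph ℕ :=
  SimpleGraph.fromEdgeSet {e | ¬ e.IsDiag ∧ P e}

theorem measurable_coinGraph : Measurable coinGraph :=
  SimpleGraph.measurable_fromEdgeSet.comp (measurable_set_iff.2 fun e =>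
    (Measurable.and measurable_const (measurable_pi_apply e)))

theorem binomialRandom_eq_coinGraph :
    G(ℕ, p) = (Measure.infinitePi fun _ : Sym2 ℕ => coinLaw p).map coinGraph := by
  have hm : ∀ e : Sym2 ℕ, Measurable fun b : Prop => (¬ e.IsDiag ∧ b) :=
    fun e => measurable_of_countable _
  rw [SimpleGraph.binomialRandom_eq_map, ProbabilityTheory.setBernoulli_eq_map,
    Measure.map_map SimpleGraph.measurable_fromEdgeSet
      (show Measurable fun q : Sym2 ℕ → Prop => {e | q e} from
        measurable_set_iff.2 fun e => measurable_pi_apply e)]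
  have h := Measure.infinitePi_map_pi (fun _ : Sym2 ℕ => coinLaw p)
    (f := fun e b => (¬ e.IsDiag ∧ b)) hm
  have h' : (fun e : Sym2 ℕ => (coinLaw p).map fun b => (¬ e.IsDiag ∧ b)) =
      fun e : Sym2 ℕ => toNNReal p • Measure.dirac (e ∈ (Sym2.diagSet : Set (Sym2 ℕ))ᶜ) +
        toNNReal (σ p) • Measure.dirac False := funext fun e => by
    rw [coinLaw, Measure.map_add _ _ (hm e), Measure.map_smul, Measure.map_smul,
      Measure.map_dirac' (hm e), Measure.map_dirac' (hm e)]
    simp
  rw [h'] at h
  rw [← h, Measure.map_map]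
  · rfl
  · exact SimpleGraph.measurable_fromEdgeSet.comp
      (measurable_set_iff.2 fun e => measurable_pi_apply e)
  · exact measurable_pi_lambda _ fun e => (hm e).comp (measurable_pi_apply e)

/-- Off the diagonal the first family, on it the second. -/
def mergeCoins (z : (Sym2 ℕ → Prop) × (Sym2 ℕ → Prop)) (e : Sym2 ℕ) : Prop :=
  if e.IsDiag then z.2 e else z.1 e

theorem measurable_mergeCoins : Measurable mergeCoins :=
  measurable_pi_lambda _ fun e => by
    unfold mergeCoins
    split_ifs
    · exact (measurable_pi_apply e).comp measurable_snd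
    · exact (measurable_pi_apply e).comp measurable_fst

theorem map_mergeCoins :
    ((Measure.infinitePi fun _ : Sym2 ℕ => coinLaw p).prod
      (Measure.infinitePi fun _ : Sym2 ℕ => coinLaw p)).map mergeCoins =
      Measure.infinitePi fun _ : Sym2 ℕ => coinLaw p := by
  refine Measure.eq_infinitePi _ fun u t ht => ?_
  rw [Measure.map_apply measurable_mergeCoins (.pi u.countable_toSet fun _ _ => ht _)]
  have e : mergeCoins ⁻¹' ((u : Set (Sym2 ℕ)).pi t) =
      ((u.filter fun e => ¬ e.IsDiag : Finset (Sym2 ℕ)) : Set (Sym2 ℕ)).pi t ×ˢ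
        ((u.filter fun e => e.IsDiag : Finset (Sym2 ℕ)) : Set (Sym2 ℕ)).pi t := by
    ext z
    simp only [Set.mem_preimage, Set.mem_pi, Set.mem_prod, Finset.mem_coe, Finset.mem_filter,
      mergeCoins]
    exact ⟨fun h => ⟨fun e he => by simpa [he.2] using h e he.1,
      fun e he => by simpa [he.2] using h e he.1⟩, fun h e he => by
      split_ifs with hd
      · exact h.2 e ⟨he, hd⟩
      · exact h.1 e ⟨he, hd⟩⟩
  rw [e, Measure.prod_prod, Measure.infinitePi_pi _ fun i _ => ht i,
    Measure.infinitePi_pi _ fun i _ => ht i, mul_comm, Finset.prod_filter_mul_prod_filter_not]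

/-- The standardised coin. -/
def stdCoin (b : Prop) : ℝ := ((if b then 1 else 0) - (p : ℝ)) / √((p : ℝ) * (1 - p))

theorem integral_coinLaw (f : Prop → ℝ) :
    ∫ b, f b ∂(coinLaw p) = (p : ℝ) * f True + (1 - p) * f False := by
  rw [coinLaw, integral_add_measure Integrable.of_finite Integrable.of_finite,
    integral_smul_nnreal_measure, integral_smul_nnreal_measure, integral_dirac, integral_dirac]
  simp [NNReal.smul_def]

variable {p}

theorem ae_random_graph (hp0 : 0 < (p : ℝ)) (hp1 : (p : ℝ) < 1)
    (hH : ∀ (n : ℕ) (G : SimpleGraph ℕ), ((√((n : ℝ) * (p * (1 - p))))⁻¹ •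
      (G.comap ((↑) : Fin n → ℕ)).adjMatrix ℝ).IsHermitian) :
    ∀ᵐ G ∂G(ℕ, p), ∀ a b : ℝ,
      Tendsto (fun n => eigenShare (hH n G) a b) atTop (𝓝 (semiMean (boxInd a b))) := by
  set π' := Measure.infinitePi fun _ : Sym2 ℕ => coinLaw p with hπ
  set s := √((p : ℝ) * (1 - p)) with hs
  have hv : 0 < (p : ℝ) * (1 - p) := mul_pos hp0 (sub_pos.2 hp1)
  have hs0 : 0 < s := Real.sqrt_pos.2 hv
  set F : SimpleGraph ℕ × (Sym2 ℕ → Prop) → Sym2 ℕ → Prop := fun z e =>
    if e.IsDiag then z.2 e else e ∈ z.1.edgeSet with hF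
  have hFm : Measurable F := measurable_pi_lambda _ fun e => by
    simp only [hF]
    split_ifs
    · exact (measurable_pi_apply e).comp measurable_snd
    · exact (measurable_set_mem e).comp (SimpleGraph.measurable_edgeSet.comp measurable_fst)
  have hFmap : (G(ℕ, p).prod π').map F = π' := by
    rw [binomialRandom_eq_coinGraph, ← hπ]
    conv_lhs => arg 2; arg 2; rw [← Measure.map_id (μ := π')]
    rw [Measure.map_prod_map _ _ measurable_coinGraph measurable_id,
      Measure.map_map hFm (measurable_coinGraph.prodMap measurable_id)]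
    convert map_mergeCoins p using 2
    funext z e
    by_cases he : e.IsDiag <;> simp [hF, mergeCoins, coinGraph, he]
  have hcm : Measurable (stdCoin p) := measurable_of_countable _
  have : IsProbabilityMeasure ((coinLaw p).map (stdCoin p)) :=
    Measure.isProbabilityMeasure_map hcm.aemeasurable
  have m1 : ∫ x, x ∂((coinLaw p).map (stdCoin p)) = 0 := by
    rw [integral_map hcm.aemeasurable (by fun_prop), integral_coinLaw]
    simp only [stdCoin, if_true, if_false]
    ring
  have m2 : ∫ x, x ^ 2 ∂((coinLaw p).map (stdCoin p)) = 1 := by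
    rw [integral_map hcm.aemeasurable (by fun_prop), integral_coinLaw]
    simp only [stdCoin, if_true, if_false, div_pow, Real.sq_sqrt hv.le]
    rw [← mul_div_assoc, ← mul_div_assoc, ← add_div, div_eq_one_iff_eq hv.ne']
    ring
  have h := FA.WignerFiniteVariance.ae_semicircle _ m1 m2
  rw [← Measure.infinitePi_map_pi (fun _ : Sym2 ℕ => coinLaw p) (f := fun _ => stdCoin p)
    fun _ => hcm] at h
  have h' := ae_of_ae_map (measurable_pi_lambda _ fun e =>
    hcm.comp (measurable_pi_apply e)).aemeasurable h
  rw [← hπ, ← hFmap] at h'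
  filter_upwards [Measure.ae_ae_of_ae_prod (ae_of_ae_map hFm.aemeasurable h')] with G hG a b
  obtain ⟨Z, hZ⟩ := hG.exists
  set X := fun e => stdCoin p (F (G, Z) e) with hX
  set Y := fun e : Sym2 ℕ => stdCoin p (e ∈ G.edgeSet) with hY
  have hclose : Tendsto (fun n => entryMean fun e => corner n Y e - corner n X e) atTop (𝓝 0) := by
    refine squeeze_zero (fun n => by unfold entryMean; positivity) (fun n => ?_)
      (tendsto_natCast_atTop_atTop.const_div_atTop (s⁻¹ ^ 2))
    rcases n.eq_zero_or_pos with rfl | hn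
    · simp [entryMean]
    have hterm : ∀ i j : Fin n, (corner n Y s(i, j) - corner n X s(i, j)) ^ 2 ≤
        if i = j then s⁻¹ ^ 2 else 0 := fun i j => by
      split_ifs with hij
      · subst hij
        simp only [hX, hY, hF, corner, Sym2.map_mk, stdCoin, ← hs, Sym2.mk_isDiag_iff, if_true,
          SimpleGraph.mem_edgeSet, SimpleGraph.irrefl, if_false, ← sub_div]
        rw [div_pow, inv_pow, div_eq_mul_inv]
        refine mul_le_of_le_one_left (by positivity) ?_
        split_ifs <;> nlinarith [p.2.1, p.2.2]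
      · simp [hX, hY, hF, corner, Fin.val_ne_of_ne hij]
    have hn' : (0 : ℝ) < n := Nat.cast_pos.2 hn
    rw [entryMean, div_le_div_iff₀ (by positivity) hn']
    refine (mul_le_mul_of_nonneg_right (Finset.sum_le_sum fun i _ =>
      Finset.sum_le_sum fun j _ => hterm i j) hn'.le).trans_eq ?_
    simp only [Finset.sum_ite_eq, Finset.mem_univ, if_true, Finset.sum_const, Finset.card_univ,
      Fintype.card_fin, nsmul_eq_mul]
    ring
  have h3 := tendsto_box_of_close (fun n => corner n X) (fun n => corner n Y) hclose hZ a b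
  simp only [← eigenShare_scaled] at h3
  refine tendsto_share_of_rank_one _ _ (fun n => ?_) h3
  have e : (√((n : ℝ) * (p * (1 - p))))⁻¹ • (G.comap ((↑) : Fin n → ℕ)).adjMatrix ℝ =
      (s * √(n : ℝ))⁻¹ • Matrix.of fun i j : Fin n =>
        if s((i : ℕ), (j : ℕ)) ∈ G.edgeSet then (1 : ℝ) else 0 := by
    rw [Real.sqrt_mul (Nat.cast_nonneg n), mul_comm, ← hs]
    ext i j
    simp [SimpleGraph.adjMatrix_apply]
  rw [e]
  exact rescaled_sub_rank n s (p : ℝ) fun e => if e ∈ G.edgeSet then 1 else 0

end FA.RandomGraphSpectrum
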