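import Mathlib.Analysis.Matrix.Spectrum
import Mathlib.LinearAlgebra.Matrix.Rank
import Mathlib.LinearAlgebra.Dimension.Constructions

/-!
# Counting eigenvalues of low rank perturbations
-/

set_option autoImplicit false

noncomputable section

namespace FA.RandomGraphSpectrum

open Finset Matrix

variable {ι : Type*} [Fintype ι] [DecidableEq ι]

theorem quadratic_eigen {A : Matrix ι ι ℝ} (hA : A.IsHermitian) (v : ι → ℝ) :
    v ⬝ᵥ (A *ᵥ v) =
        ∑ i, hA.eigenvalues i * ((hA.eigenvectorUnitary : Matrix ι ι ℝ)ᵀ *ᵥ v) i ^ 2 ∧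
      v ⬝ᵥ v = ∑ i, ((hA.eigenvectorUnitary : Matrix ι ι ℝ)ᵀ *ᵥ v) i ^ 2 := by
  set U : Matrix ι ι ℝ := (hA.eigenvectorUnitary : Matrix ι ι ℝ) with hU
  have hst : star U = Uᵀ := by rw [star_eq_conjTranspose, conjTranspose_eq_transpose_of_trivial]
  have u2 : U * Uᵀ = 1 := by
    rw [← hst, hU]
    exact Unitary.mul_star_self_of_mem hA.eigenvectorUnitary.2
  have eA : A = U * diagonal hA.eigenvalues * Uᵀ := by
    conv_lhs => rw [hA.spectral_theorem, Unitary.conjStarAlgAut_apply]
    rw [← hU, hst]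
    simp
  have hv : U *ᵥ (Uᵀ *ᵥ v) = v := by rw [mulVec_mulVec, u2, one_mulVec]
  have key : ∀ w : ι → ℝ, v ⬝ᵥ (U *ᵥ w) = (Uᵀ *ᵥ v) ⬝ᵥ w := fun w => by
    rw [dotProduct_mulVec, mulVec_transpose]
  refine ⟨?_, ?_⟩
  · conv_lhs => rw [eA, ← mulVec_mulVec, ← mulVec_mulVec, key]
    exact sum_congr rfl fun i _ => by rw [mulVec_diagonal]; ring
  · conv_lhs => arg 2; rw [← hv]
    rw [key]
    exact sum_congr rfl fun i _ => (sq _).symm

/-- If every chosen eigenvalue of `A` exceeds every unchosen one of `B`, at most `rank (A - B)`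
more are chosen for `A` than for `B`. -/
theorem card_le_card_add_rank {A B : Matrix ι ι ℝ} (hA : A.IsHermitian) (hB : B.IsHermitian)
    (s t : Finset ι) (h : ∀ i ∈ s, ∀ j ∉ t, hB.eigenvalues j < hA.eigenvalues i) :
    s.card ≤ t.card + (A - B).rank := by
  rcases s.eq_empty_or_nonempty with rfl | hs
  · simp
  obtain ⟨i₀, hi₀, hmin⟩ := s.exists_min_image hA.eigenvalues hs
  set a := hA.eigenvalues with ha
  set b := hB.eigenvalues with hb
  set U : Matrix ι ι ℝ := (hA.eigenvectorUnitary : Matrix ι ι ℝ) with hU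
  set V : Matrix ι ι ℝ := (hB.eigenvectorUnitary : Matrix ι ι ℝ) with hV
  have hst : star U = Uᵀ := by rw [star_eq_conjTranspose, conjTranspose_eq_transpose_of_trivial]
  have u1 : Uᵀ * U = 1 := by
    rw [← hst, hU]
    exact Unitary.star_mul_self_of_mem hA.eigenvectorUnitary.2
  let E : ({i // i ∈ s} → ℝ) →ₗ[ℝ] (ι → ℝ) :=
    U.mulVecLin.comp (Function.ExtendByZero.linearMap ℝ Subtype.val)
  let T := ((LinearMap.funLeft ℝ ℝ (Subtype.val : {j // j ∈ t} → ι)).comp
    (Vᵀ.mulVecLin.comp E)).prod ((A - B).mulVecLin.rangeRestrict.comp E)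
  have hT : Function.Injective T := by
    rw [← LinearMap.ker_eq_bot, LinearMap.ker_eq_bot']
    intro c hc
    have hc1 : ∀ j ∈ t, (Vᵀ *ᵥ E c) j = 0 := fun j hj => congrFun (congrArg Prod.fst hc) ⟨j, hj⟩
    have hc2 : (A - B) *ᵥ E c = 0 := congrArg Subtype.val (congrArg Prod.snd hc)
    have hd : Uᵀ *ᵥ E c = Function.extend Subtype.val c 0 := by
      show Uᵀ *ᵥ (U *ᵥ Function.extend Subtype.val c 0) = _
      rw [mulVec_mulVec, u1, one_mulVec]
    obtain ⟨qA, nA⟩ := quadratic_eigen hA (E c)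
    obtain ⟨qB, nB⟩ := quadratic_eigen hB (E c)
    rw [← hU, hd] at qA nA
    rw [← hV] at qB nB
    have he : ∀ i ∉ s, (Function.extend Subtype.val c 0 : ι → ℝ) i = 0 := fun i hi => by
      rw [Function.extend_apply' _ _ _ (by rintro ⟨k, rfl⟩; exact hi k.2)]
      rfl
    have h1 : a i₀ * (E c ⬝ᵥ E c) ≤ E c ⬝ᵥ (A *ᵥ E c) := by
      rw [qA, nA, mul_sum]
      refine sum_le_sum fun i _ => ?_
      by_cases hi : i ∈ s
      · exact mul_le_mul_of_nonneg_right (hmin i hi) (sq_nonneg _)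
      · simp [he i hi]
    have h2 : ∀ j, b j * (Vᵀ *ᵥ E c) j ^ 2 ≤ a i₀ * (Vᵀ *ᵥ E c) j ^ 2 := fun j => by
      by_cases hj : j ∈ t
      · simp [hc1 j hj]
      · exact mul_le_mul_of_nonneg_right (h i₀ hi₀ j hj).le (sq_nonneg _)
    have hAB : A *ᵥ E c = B *ᵥ E c := by rwa [sub_mulVec, sub_eq_zero] at hc2
    rw [hAB, qB, nB, mul_sum] at h1
    have hz : ∀ j, (Vᵀ *ᵥ E c) j = 0 := fun j => by
      by_contra hne
      have hj : j ∉ t := fun hj => hne (hc1 j hj)
      exact h1.not_gt (sum_lt_sum (fun j _ => h2 j) ⟨j, mem_univ j,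
        mul_lt_mul_of_pos_right (h i₀ hi₀ j hj) (by positivity)⟩)
    have h0 : E c ⬝ᵥ E c = 0 := by rw [nB]; simp [hz]
    funext i
    have h3 := congrFun (hd.symm.trans (by rw [dotProduct_self_eq_zero.1 h0, mulVec_zero])) i.1
    rwa [Subtype.val_injective.extend_apply] at h3
  have h4 := LinearMap.finrank_le_finrank_of_injective hT
  rw [Module.finrank_prod, Module.finrank_fintype_fun_eq_card,
    Module.finrank_fintype_fun_eq_card, Fintype.card_coe, Fintype.card_coe] at h4
  exact h4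

/-- The number of eigenvalues above `x`. -/
theorem card_gt_le {A B : Matrix ι ι ℝ} (hA : A.IsHermitian) (hB : B.IsHermitian) (x : ℝ) :
    Nat.card {i // x < hA.eigenvalues i} ≤
      Nat.card {i // x < hB.eigenvalues i} + (A - B).rank := by
  simp only [Nat.card_eq_fintype_card, Fintype.card_subtype]
  exact card_le_card_add_rank hA hB _ _ fun i hi j hj => by
    simp only [mem_filter, mem_univ, true_and, not_lt] at hi hj
    exact hj.trans_lt hi

/-- The number of eigenvalues in an interval. -/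
theorem card_Icc_le {A B : Matrix ι ι ℝ} (hA : A.IsHermitian) (hB : B.IsHermitian) (x y : ℝ) :
    Nat.card {i // hA.eigenvalues i ∈ Set.Icc x y} ≤
      Nat.card {i // hB.eigenvalues i ∈ Set.Icc x y} + 2 * (A - B).rank := by
  simp only [Nat.card_eq_fintype_card, Fintype.card_subtype, Set.mem_Icc]
  rcases lt_or_ge y x with hxy | hxy
  · rw [filter_false_of_mem fun i _ hi => by linarith [hi.1, hi.2]]
    simp
  have hsplit : ∀ c : ι → ℝ, #{i | x ≤ c i} = #{i | x ≤ c i ∧ c i ≤ y} + #{i | y < c i} :=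
    fun c => by
      rw [← card_union_of_disjoint (disjoint_filter.2 fun i _ h1 h2 => h1.2.not_gt h2),
        ← filter_or]
      exact congrArg card (filter_congr fun i _ =>
        ⟨fun hi => (le_or_gt (c i) y).imp (fun h => ⟨hi, h⟩) id,
          fun hi => hi.elim (fun h => h.1) fun h => hxy.trans h.le⟩)
  have h1 := card_le_card_add_rank hA hB {i | x ≤ hA.eigenvalues i} {i | x ≤ hB.eigenvalues i}
    fun i hi j hj => by
      simp only [mem_filter, mem_univ, true_and, not_le] at hi hj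
      exact hj.trans_le hi
  have h2 := card_le_card_add_rank hB hA {i | y < hB.eigenvalues i} {i | y < hA.eigenvalues i}
    fun i hi j hj => by
      simp only [mem_filter, mem_univ, true_and, not_lt] at hi hj
      exact hj.trans_lt hi
  have hneg : (B - A).rank ≤ (A - B).rank := by
    rw [show B - A = (A - B) * (-1) by simp]
    exact rank_mul_le_left _ _
  rw [hsplit, hsplit] at h1
  omega

end FA.RandomGraphSpectrum
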